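import Mathlib
import Fermat.Agent.LT.T2.SpecTau
import Fermat.Agent.LT.T2.H724.CommSpec
import Fermat.Agent.LT.T2.H228.ConvStable

/-!
# Row LT, tower T2, leaf T2.22 `LeafT02` (`ConvCuspT`, class of T5): CUT (helper175, owner of
# registry row 1145)

OFF-MAIN.  Vocabulary: `LT/T2/SpecTau.lean` (helper130, sha256 4d2b0fc2), `LT/T2/Spec.lean` v3
(b934629a), `LT/T2/H724/CommSpec.lean` (helper724, 78972da3: `convKer724`, `IsBadUnit724`,
`ConvKerC724`), `LT/T2/H228/ConvStable.lean` (helper228, bd5c0df1: `infComp_mul228`, ...),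
byte-identical copies.  Definitions, Props, PROVED tops; nothing is assumed.

## The cut

    leafT02_of_parts175 : LeafT02a175 K → LeafT02b175 K → LeafT02c175 K → LeafT02d175 K →
      T2.LeafT02 K

* `T2.22a` `LeafT02a175`: `adj f` is a (spherical) test function of type `τ` when `f` is.
* `T2.22b` `LeafT02b175`: `conv F f` preserves `IsAutT` and `IsCuspT`.
* `T2.22c` `LeafT02c175`: the adjoint of `conv F f` is `conv F (adj f)` on `IsAutT`
  (proof of T2.02c, helper981 `unfold981` / `strict981`, with the ray generator `r` as `z`).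
* `T2.22d` `LeafT02d175`: convolutions by spherical test functions of type `τ` commute.

## The cut of `T2.22d` (Gelfand's trick with `θ(g) = e gᵀ e`, `e = diag(1, -1)`)

`ι = adjugate` turns the type `τ` into `τ⁻¹`; `θ(g) = e gᵀ e = s (adjugate g) s`
(`s = [[0,1],[1,0]]`) is the identity on `SO(2)` and every `M ∈ GL₂(ℂ)` satisfies
`θ(M) = A M A⁻¹` with ONE `A ∈ SU(2)` (real if `M` is real): so `f ∘ θ = f` for every `f` of
spherical shape of type `τ`, for EVERY `K_∞`-type `τ`.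

    convCommT_of_leaves175 :
      H724.ConvKerC724 K → ShapeTC175 K → ThetaMeasC175 K → ThetaSwapC175 K →
      LocArchC175 → LocFinTC175 K → FinGlueC175 K → InfGlueC175 K → LeafT02d175 K

* `ConvKerC724` (FUBINI): DONE (helper323 `convKerC323`), used as it is.
* `ShapeTC175` (T2.22d.1): `f₁ ⋆ f₂` has spherical shape of type `τ` (proof of helper833).
* `ThetaMeasC175` (T2.22d.2): Haar measures are `θ`-invariant (`θ = Ad(s) ∘ ι`, helper286).
* `ThetaSwapC175` (T2.22d.3): `(f₁ ⋆ f₂)(θ g) = ((f₂ ∘ θ) ⋆ (f₁ ∘ θ))(g)` (proof of helper473).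
* `LocArchC175` (T2.22d.4, Mathlib only): `θ(M) A = A M`, `A ∈ SU(2)`, real for real `M`.
* `LocFinTC175` (T2.22d.5): `θ(M) = A M B`, `A, B ∈ GL₂(𝒪_v)` (from helper570 `leafLocFin570`).
* `FinGlueC175` (T2.22d.6): the finite part of the double coset statement.
* `InfGlueC175` (T2.22d.7): the infinite part.
-/

set_option autoImplicit false

open IsDedekindDomain NumberField MeasureTheory AutomorphicForm
open Fermat.Agent.LT.H556.A0

noncomputable section

namespace Fermat.Agent.LT.T2.H175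

open Fermat.Agent.LT.T2

attribute [local instance] Fermat.Agent.LT.T2.borelG

/-! ## 1. The anti-involution `θ` -/

section Theta

variable {R : Type*} [CommRing R]

/-- `θ(M) = e Mᵀ e`, `e = diag(1, -1)`: `[[a, b], [c, d]] ↦ [[a, -c], [-b, d]]`. -/
def thetaM175 (M : Matrix (Fin 2) (Fin 2) R) : Matrix (Fin 2) (Fin 2) R :=
  !![M 0 0, -M 1 0; -M 0 1, M 1 1]

theorem thetaM175_mul (M N : Matrix (Fin 2) (Fin 2) R) :
    thetaM175 (M * N) = thetaM175 N * thetaM175 M := by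
  ext i j
  fin_cases i <;> fin_cases j <;>
    simp [thetaM175, Matrix.mul_apply, Fin.sum_univ_two] <;> ring

theorem thetaM175_one : thetaM175 (1 : Matrix (Fin 2) (Fin 2) R) = 1 := by
  ext i j
  fin_cases i <;> fin_cases j <;> simp [thetaM175]

theorem thetaM175_thetaM175 (M : Matrix (Fin 2) (Fin 2) R) : thetaM175 (thetaM175 M) = M := by
  ext i j
  fin_cases i <;> fin_cases j <;> simp [thetaM175]

theorem thetaM175_map {S : Type*} [CommRing S] (φ : R →+* S) (M : Matrix (Fin 2) (Fin 2) R) :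
    thetaM175 (M.map φ) = (thetaM175 M).map φ := by
  ext i j
  fin_cases i <;> fin_cases j <;> simp [thetaM175]

end Theta

variable {K : Type} [Field K] [NumberField K]

/-- The anti-involution `θ` of `GL₂(𝔸_K)`. -/
def thetaG175 (g : G K) : G K :=
  ⟨thetaM175 (g : Matrix (Fin 2) (Fin 2) (Adl K)),
    thetaM175 ((g⁻¹ : G K) : Matrix (Fin 2) (Fin 2) (Adl K)),
    by rw [← thetaM175_mul, ← Units.val_mul, inv_mul_cancel, Units.val_one, thetaM175_one],
    by rw [← thetaM175_mul, ← Units.val_mul, mul_inv_cancel, Units.val_one, thetaM175_one]⟩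

theorem thetaG175_val (g : G K) :
    ((thetaG175 g : G K) : Matrix (Fin 2) (Fin 2) (Adl K))
      = thetaM175 (g : Matrix (Fin 2) (Fin 2) (Adl K)) := rfl

theorem thetaG175_mul (g h : G K) : thetaG175 (g * h) = thetaG175 h * thetaG175 g := by
  apply Units.ext
  rw [Units.val_mul, thetaG175_val, thetaG175_val, thetaG175_val, Units.val_mul, thetaM175_mul]

theorem thetaG175_thetaG175 (g : G K) : thetaG175 (thetaG175 g) = g := by
  apply Units.ext
  rw [thetaG175_val, thetaG175_val, thetaM175_thetaM175]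

theorem thetaG175_one : thetaG175 (1 : G K) = 1 := by
  apply Units.ext
  rw [thetaG175_val, Units.val_one, thetaM175_one]

theorem thetaG175_inv (g : G K) : thetaG175 g⁻¹ = (thetaG175 g)⁻¹ := by
  rw [eq_inv_iff_mul_eq_one, ← thetaG175_mul, mul_inv_cancel, thetaG175_one]

theorem finComp_thetaG175 (v : HeightOneSpectrum (𝓞 K)) (g : G K) :
    finComp v (thetaG175 g) = thetaM175 (finComp v g) := by
  rw [H228.finComp_eq228, H228.finComp_eq228, thetaG175_val]
  exact (thetaM175_map (H228.finEval228 v) _).symm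

theorem infComp_thetaG175 (w : InfinitePlace K) (g : G K) :
    infComp w (thetaG175 g) = thetaM175 (infComp w g) := by
  rw [H228.infComp_eq228, H228.infComp_eq228, thetaG175_val]
  exact (thetaM175_map (H228.infEmb228 w) _).symm

/-! ## 2. The four parts of `T2.22` -/

variable (K)

/-- `adj` preserves the test functions and the spherical test functions of type `τ`. -/
def AdjTestT175 (𝔫 : Ideal (𝓞 K)) (τ : G K → ℂ) : Prop :=
  (∀ f : G K → ℂ, IsTestT 𝔫 τ f → IsTestT 𝔫 τ (adj f)) ∧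
    (∀ f : G K → ℂ, IsSphTestT 𝔫 τ f → IsSphTestT 𝔫 τ (adj f))

/-- Convolution by a test function of type `τ` preserves `IsCuspT` and `IsAutT`. -/
def ConvStableT175 (𝔫 : Ideal (𝓞 K)) (τ : G K → ℂ) : Prop :=
  ∀ R : FrameR K,
    (∀ f φ : G K → ℂ, IsTestT 𝔫 τ f → IsCuspT 𝔫 τ R.r φ → IsCuspT 𝔫 τ R.r (conv R.F f φ)) ∧
    (∀ f ψ : G K → ℂ, IsTestT 𝔫 τ f → IsAutT 𝔫 τ R.r ψ → IsAutT 𝔫 τ R.r (conv R.F f ψ))

/-- The adjoint of `conv F f` on `IsAutT` is `conv F (adj f)`. -/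
def ConvAdjT175 (𝔫 : Ideal (𝓞 K)) (τ : G K → ℂ) : Prop :=
  ∀ (R : FrameR K) (f φ ψ : G K → ℂ), IsTestT 𝔫 τ f → IsAutT 𝔫 τ R.r φ → IsAutT 𝔫 τ R.r ψ →
    pair R.F (conv R.F f φ) ψ = pair R.F φ (conv R.F (adj f) ψ)

/-- Convolutions by spherical test functions of type `τ` commute on `IsAutT`. -/
def ConvCommT175 (𝔫 : Ideal (𝓞 K)) (τ : G K → ℂ) : Prop :=
  ∀ (R : FrameR K) (f₁ f₂ ψ : G K → ℂ), IsSphTestT 𝔫 τ f₁ → IsSphTestT 𝔫 τ f₂ →
    IsAutT 𝔫 τ R.r ψ → conv R.F f₁ (conv R.F f₂ ψ) = conv R.F f₂ (conv R.F f₁ ψ)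

/-- **T2.22a.** -/
def LeafT02a175 : Prop :=
  T1.T1Out K → ∀ (𝔫 : Ideal (𝓞 K)) (τ : G K → ℂ), 𝔫 ≠ ⊥ → IsKType τ → AdjTestT175 K 𝔫 τ

/-- **T2.22b.** -/
def LeafT02b175 : Prop :=
  T1.T1Out K → ∀ (𝔫 : Ideal (𝓞 K)) (τ : G K → ℂ), 𝔫 ≠ ⊥ → IsKType τ → ConvStableT175 K 𝔫 τ

/-- **T2.22c.** -/
def LeafT02c175 : Prop :=
  T1.T1Out K → ∀ (𝔫 : Ideal (𝓞 K)) (τ : G K → ℂ), 𝔫 ≠ ⊥ → IsKType τ → ConvAdjT175 K 𝔫 τ

/-- **T2.22d.** -/
def LeafT02d175 : Prop :=
  T1.T1Out K → ∀ (𝔫 : Ideal (𝓞 K)) (τ : G K → ℂ), 𝔫 ≠ ⊥ → IsKType τ → ConvCommT175 K 𝔫 τ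

variable {K}

/-- **TOP of T2.22**: `T2.LeafT02` from its four parts. -/
theorem leafT02_of_parts175 (ha : LeafT02a175 K) (hb : LeafT02b175 K) (hc : LeafT02c175 K)
    (hd : LeafT02d175 K) : T2.LeafT02 K := by
  intro hT1 𝔫 τ h𝔫 hτ R
  have A := ha hT1 𝔫 τ h𝔫 hτ
  have B := hb hT1 𝔫 τ h𝔫 hτ R
  exact ⟨A.1, A.2, B.1, B.2, fun f φ ψ hf hφ hψ => hc hT1 𝔫 τ h𝔫 hτ R f φ ψ hf hφ hψ,
    fun f₁ f₂ ψ h₁ h₂ hψ => hd hT1 𝔫 τ h𝔫 hτ R f₁ f₂ ψ h₁ h₂ hψ⟩

/-! ## 3. The cut of `T2.22d` -/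

/-- The SHAPE of a spherical test function of type `τ`: bi-invariance under `U(𝔫)`,
`f(k₁ g k₂) = τ(k₁)⁻¹ τ(k₂)⁻¹ f(g)` for the compact groups at the infinite places, support in
`U(𝔫)_v` at the places `v ∣ 𝔫`.  No regularity. -/
structure IsSphShapeT175 (𝔫 : Ideal (𝓞 K)) (τ : G K → ℂ) (f : G K → ℂ) : Prop where
  level_right : ∀ u : G K, InLevelGroup 𝔫 u → ∀ g : G K, f (g * u) = f g
  level_left : ∀ u : G K, InLevelGroup 𝔫 u → ∀ g : G K, f (u * g) = f g
  arch_right : ∀ (w : InfinitePlace K) (k : G K), IsArchCompact w k →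
    ∀ g : G K, f (g * k) = (τ k)⁻¹ * f g
  arch_left : ∀ (w : InfinitePlace K) (k : G K), IsArchCompact w k →
    ∀ g : G K, f (k * g) = (τ k)⁻¹ * f g
  bad_unit : ∀ g : G K, f g ≠ 0 → H724.IsBadUnit724 𝔫 g

theorem shapeT_of_sphTestT175 {𝔫 : Ideal (𝓞 K)} {τ : G K → ℂ} {f : G K → ℂ}
    (h : IsSphTestT 𝔫 τ f) : IsSphShapeT175 𝔫 τ f :=
  ⟨h.test.level_right, h.test.level_left, h.test.arch_right, h.test.arch_left, h.bad_unit⟩

/-- The subgroup of `GL₂(𝔸_K)` generated by the compact groups `K_w`, `w ∣ ∞`. -/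
def archGroup175 (K : Type) [Field K] [NumberField K] : Subgroup (G K) :=
  Subgroup.closure {k | ∃ w : InfinitePlace K, IsArchCompact w k}

variable (K)

/-- **T2.22d.1 SHAPE.**  The convolution kernel of two functions of spherical shape of type `τ`
has spherical shape of type `τ` (proof of `convShapeC833`, helper833; the substitution
`h ↦ k h` produces the factor `τ(k)⁻¹`; no integrability). -/
def ShapeTC175 : Prop :=
  T1.LocCompC K → ∀ (𝔫 : Ideal (𝓞 K)) (τ : G K → ℂ) (F : Frame K) (f₁ f₂ : G K → ℂ),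
    IsSphShapeT175 𝔫 τ f₁ → IsSphShapeT175 𝔫 τ f₂ →
      IsSphShapeT175 𝔫 τ (H724.convKer724 F f₁ f₂)

/-- **T2.22d.2 MEASURE.**  Every Haar measure of `GL₂(𝔸_K)` is invariant under `θ`
(`θ(g) = s · adjG724 g · s`, `s = [[0,1],[1,0]]`; `adjMeasC286` of helper286 for `adjG724`,
left and right invariance for the conjugation by `s`). -/
def ThetaMeasC175 : Prop :=
  T1.LocCompC K → T1.UnimodC K → ∀ μ : Measure (G K), μ.IsHaarMeasure →
    MeasurePreserving (thetaG175 (K := K)) μ μ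

/-- **T2.22d.3 SWAP.**  `(f₁ ⋆ f₂)(θ g) = ((f₂ ∘ θ) ⋆ (f₁ ∘ θ))(g)` for ALL functions (proof of
`convSwapC473`, helper473: only `thetaG175_mul`, `thetaG175_inv`, `thetaG175_thetaG175` and the
invariance of the measure under `θ` and `inv` are used). -/
def ThetaSwapC175 : Prop :=
  T1.LocCompC K → T1.UnimodC K → ∀ F : Frame K, MeasurePreserving (thetaG175 (K := K)) F.μ F.μ →
    ∀ (f₁ f₂ : G K → ℂ) (g : G K),
      H724.convKer724 F f₁ f₂ (thetaG175 g)
        = H724.convKer724 F (fun h => f₂ (thetaG175 h)) (fun h => f₁ (thetaG175 h)) g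

/-- **T2.22d.4 LOCAL, infinite places** (Mathlib only).  For every `M ∈ M₂(ℂ)` there is
`A ∈ SU(2)` with `θ(M) A = A M`; if `M` is real, `A` is real (so `A ∈ SO(2)`).
(`A = [[α, -β], [β, conj α]]` with `β` REAL, `|α|² + β² = 1` and `β (d - a) = α b + conj α · c`:
one complex = two real linear equations in three real unknowns; for real `M` take `α` real,
`(α, β)` proportional to `(d - a, b + c)`, or `(1, 0)`.) -/
def LocArchC175 : Prop :=
  ∀ M : Matrix (Fin 2) (Fin 2) ℂ,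
    ∃ A : Matrix (Fin 2) (Fin 2) ℂ,
      A * A.conjTranspose = 1 ∧ A.det = 1 ∧ thetaM175 M * A = A * M ∧
        ((∀ i j, (M i j).im = 0) → ∀ i j, (A i j).im = 0)

/-- **T2.22d.5 LOCAL, finite places**: for `M ∈ GL₂(K_v)` there are `A, B ∈ GL₂(𝒪_v)` with
`θ(M) = A M B` (`θ(M) = s (adjugate M) s`; `leafLocFin570` of helper570 for the adjugate). -/
def LocFinTC175 : Prop :=
  ∀ (v : HeightOneSpectrum (𝓞 K)) (M : Matrix (Fin 2) (Fin 2) (v.adicCompletion K)),
    M.det ≠ 0 →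
    ∃ A A' B B' : Matrix (Fin 2) (Fin 2) (v.adicCompletion K),
      A * A' = 1 ∧ B * B' = 1 ∧
      (∀ i j, Valued.v (A i j) ≤ 1) ∧ (∀ i j, Valued.v (A' i j) ≤ 1) ∧
      (∀ i j, Valued.v (B i j) ≤ 1) ∧ (∀ i j, Valued.v (B' i j) ≤ 1) ∧
      thetaM175 M = A * M * B

/-- **T2.22d.6 GLUE, finite places.**  For `g` in `U(𝔫)_v` at the places `v ∣ 𝔫` there are
`a, b ∈ U(𝔫)` with `θ(g)_v = a_v g_v b_v` at every finite place.
(At `v ∤ 𝔫`: `a_v, b_v` from `LocFinTC175`, `idealClosure 𝔫 v = 𝒪_v`; at `v ∣ 𝔫`: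
`a_v = θ(g_v) g_v⁻¹ ∈ U(𝔫)_v`, `b_v = 1`; every family of integral matrices is adelic.) -/
def FinGlueC175 : Prop :=
  LocFinTC175 K → ∀ 𝔫 : Ideal (𝓞 K), 𝔫 ≠ ⊥ → ∀ g : G K, H724.IsBadUnit724 𝔫 g →
    ∃ a b : G K, InLevelGroup 𝔫 a ∧ InLevelGroup 𝔫 b ∧
      ∀ v : HeightOneSpectrum (𝓞 K),
        finComp v (thetaG175 g) = finComp v a * finComp v g * finComp v b

/-- **T2.22d.7 GLUE, infinite places.**  For every `g` there is `c` in the group generated by the
`K_w`, trivial at the finite places, with `θ(g)_w c_w = c_w g_w` at every infinite place.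
(`c = ∏_w c_w`, `c_w` local at `w` with matrix `A_w` from `LocArchC175`; at a real place the
matrix of `g` is real.) -/
def InfGlueC175 : Prop :=
  LocArchC175 → ∀ g : G K, ∃ c ∈ archGroup175 K, (∀ v : HeightOneSpectrum (𝓞 K), TrivAtFin v c) ∧
    ∀ w : InfinitePlace K, infComp w (thetaG175 g) * infComp w c = infComp w c * infComp w g

variable {K}

/-! ## 4. Consequences (PROVED) -/

/-- Two elements of `GL₂(𝔸_K)` with the same components at all places are equal. -/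
theorem ext_comp175 {g h : G K} (hinf : ∀ w : InfinitePlace K, infComp w g = infComp w h)
    (hfin : ∀ v : HeightOneSpectrum (𝓞 K), finComp v g = finComp v h) : g = h := by
  apply Units.ext
  ext i j
  refine H228.adele_ext228 (fun w => ?_) (fun v => ?_)
  · have h1 := congrFun (congrFun (hinf w) i) j
    exact (InfinitePlace.Completion.extensionEmbedding w).injective h1
  · exact congrFun (congrFun (hfin v) i) j

theorem isArchCompact_one175 (w : InfinitePlace K) : IsArchCompact w (1 : G K) := by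
  refine ⟨⟨fun w' _ => (H228.trivAtInf_iff228 w' 1).2
    (by unfold H228.infMat228; rw [Units.val_one, map_one]), fun v => H228.finComp_one228 v⟩,
    ?_, ?_⟩
  · rw [H228.infComp_one228, Matrix.conjTranspose_one, mul_one]
  · intro _
    rw [H228.infComp_one228, Matrix.det_one]

theorem kType_map_one175 {τ : G K → ℂ} (hτ : IsKType τ) : τ 1 = 1 := by
  obtain ⟨w⟩ : Nonempty (InfinitePlace K) := inferInstance
  have h1 := hτ.mul w 1 1 (isArchCompact_one175 w) (isArchCompact_one175 w)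
  rw [mul_one] at h1
  have h2 : τ (1 : G K) ≠ 0 := by
    intro h0
    have := hτ.norm_one w 1 (isArchCompact_one175 w)
    rw [h0, norm_zero] at this
    exact zero_ne_one this
  have h3 : τ (1 : G K) * (τ 1 - 1) = 0 := by
    rw [mul_sub, mul_one, ← h1, sub_self]
  rcases mul_eq_zero.1 h3 with h | h
  · exact absurd h h2
  · exact sub_eq_zero.1 h

theorem kType_mul_inv175 {τ : G K → ℂ} (hτ : IsKType τ) {w : InfinitePlace K} {k : G K}
    (hk : IsArchCompact w k) : τ k * τ k⁻¹ = 1 := by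
  rw [← hτ.mul w k k⁻¹ hk (H228.isArchCompact_inv228 hk), mul_inv_cancel, kType_map_one175 hτ]

/-- A function of spherical shape of type `τ` is invariant under the conjugation by the group
generated by the `K_w`. -/
theorem conj_inv175 {𝔫 : Ideal (𝓞 K)} {τ : G K → ℂ} (hτ : IsKType τ) {f : G K → ℂ}
    (hf : IsSphShapeT175 𝔫 τ f) {c : G K} (hc : c ∈ archGroup175 K) (g : G K) :
    f (c * g * c⁻¹) = f g := by
  revert g
  refine Subgroup.closure_induction (p := fun c _ => ∀ g : G K, f (c * g * c⁻¹) = f g)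
    ?_ ?_ ?_ ?_ hc
  · rintro k ⟨w, hk⟩ g
    rw [hf.arch_right w k⁻¹ (H228.isArchCompact_inv228 hk), hf.arch_left w k hk, ← mul_assoc,
      ← mul_inv, mul_comm (τ k⁻¹), kType_mul_inv175 hτ hk, inv_one, one_mul]
  · intro g
    rw [one_mul, inv_one, mul_one]
  · intro x y _ _ hx hy g
    have e : x * y * g * (x * y)⁻¹ = x * (y * g * y⁻¹) * x⁻¹ := by group
    rw [e, hx, hy]
  · intro x _ hx g
    have := hx (x⁻¹ * g * x⁻¹⁻¹)
    rw [← this]
    congr 1
    group

/-- **The double coset statement for `θ`**, from the two glue leaves. -/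
theorem theta_eq175 (hFG : FinGlueC175 K) (hIG : InfGlueC175 K) (hArch : LocArchC175)
    (hFin : LocFinTC175 K) {𝔫 : Ideal (𝓞 K)} (h𝔫 : 𝔫 ≠ ⊥) {g : G K}
    (hg : H724.IsBadUnit724 𝔫 g) :
    ∃ a b c : G K, InLevelGroup 𝔫 a ∧ InLevelGroup 𝔫 b ∧ c ∈ archGroup175 K ∧
      thetaG175 g = a * (c * g * c⁻¹) * b := by
  obtain ⟨a, b, ha, hb, hab⟩ := hFG hFin 𝔫 h𝔫 g hg
  obtain ⟨c, hc, hcfin, hcinf⟩ := hIG hArch g
  refine ⟨a, b, c, ha, hb, hc, ext_comp175 (fun w => ?_) (fun v => ?_)⟩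
  · rw [H228.infComp_mul228, H228.infComp_mul228, H228.infComp_mul228, H228.infComp_mul228,
      H228.infComp_eq_one_of_triv228 (ha.1 w), H228.infComp_eq_one_of_triv228 (hb.1 w), one_mul,
      mul_one, ← hcinf w, mul_assoc, H228.infComp_mul_inv228, mul_one]
  · have h1 : finComp v c = 1 := hcfin v
    have h2 : finComp v c⁻¹ = 1 := H228.trivAtFin_inv228 (hcfin v)
    rw [H228.finComp_mul228, H228.finComp_mul228, H228.finComp_mul228, H228.finComp_mul228, h1,
      h2, one_mul, mul_one]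
    exact hab v

theorem isBadUnit_theta175 {𝔫 : Ideal (𝓞 K)} {g : G K} (hg : H724.IsBadUnit724 𝔫 g) :
    H724.IsBadUnit724 𝔫 (thetaG175 g) := by
  intro v hv i j
  have key : ∀ (x : G K) (i j : Fin 2), (∀ i j, (finComp v x - 1) i j ∈ idealClosure 𝔫 v) →
      (finComp v (thetaG175 x) - 1) i j ∈ idealClosure 𝔫 v := by
    intro x i j hx
    have hneg : ∀ y : v.adicCompletion K, y ∈ idealClosure 𝔫 v → -y ∈ idealClosure 𝔫 v := by
      intro y hy
      have hc : Continuous fun a : v.adicCompletion K => -a := continuous_neg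
      refine map_mem_closure hc hy ?_
      rintro _ ⟨a, ha, rfl⟩
      exact ⟨-a, 𝔫.neg_mem ha, by simp⟩
    rw [finComp_thetaG175]
    have h00 := hx 0 0
    have h01 := hneg _ (hx 0 1)
    have h10 := hneg _ (hx 1 0)
    have h11 := hx 1 1
    fin_cases i <;> fin_cases j
    · simpa [thetaM175, Matrix.sub_apply] using h00
    · simpa [thetaM175, Matrix.sub_apply] using h10
    · simpa [thetaM175, Matrix.sub_apply] using h01
    · simpa [thetaM175, Matrix.sub_apply] using h11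
  refine ⟨key g i j fun i j => (hg v hv i j).1, ?_⟩
  rw [← thetaG175_inv]
  exact key g⁻¹ i j fun i j => (hg v hv i j).2

/-- `f ∘ θ = f` for every function of spherical shape of type `τ`. -/
theorem sphInvT175 (hFG : FinGlueC175 K) (hIG : InfGlueC175 K) (hArch : LocArchC175)
    (hFin : LocFinTC175 K) {𝔫 : Ideal (𝓞 K)} (h𝔫 : 𝔫 ≠ ⊥) {τ : G K → ℂ} (hτ : IsKType τ)
    {f : G K → ℂ} (hf : IsSphShapeT175 𝔫 τ f) (g : G K) : f (thetaG175 g) = f g := by
  by_cases hg : H724.IsBadUnit724 𝔫 g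
  · obtain ⟨a, b, c, ha, hb, hc, e⟩ := theta_eq175 hFG hIG hArch hFin h𝔫 hg
    rw [e, hf.level_right b hb, hf.level_left a ha, conj_inv175 hτ hf hc]
  · have h1 : f g = 0 := by
      by_contra h
      exact hg (hf.bad_unit g h)
    have h2 : f (thetaG175 g) = 0 := by
      by_contra h
      have := isBadUnit_theta175 (hf.bad_unit _ h)
      rw [thetaG175_thetaG175] at this
      exact hg this
    rw [h1, h2]

/-- **TOP of T2.22d**: convolutions by spherical test functions of type `τ` commute. -/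
theorem convCommT_of_leaves175 (hKer : H724.ConvKerC724 K) (hShape : ShapeTC175 K)
    (hMeas : ThetaMeasC175 K) (hSwap : ThetaSwapC175 K) (hArch : LocArchC175)
    (hFin : LocFinTC175 K) (hFG : FinGlueC175 K) (hIG : InfGlueC175 K) : LeafT02d175 K := by
  intro hT1 𝔫 τ h𝔫 hτ R f₁ f₂ ψ h₁ h₂ hψ
  funext x
  have hLC := hT1.locComp
  have hμ : MeasurePreserving (thetaG175 (K := K)) R.F.μ R.F.μ :=
    hMeas hLC hT1.unimod R.F.μ R.F.haar
  rw [hKer hLC R.F f₁ f₂ ψ h₁.test.cont h₁.test.cpt h₂.test.cont h₂.test.cpt hψ.cont hψ.bdd x,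
    hKer hLC R.F f₂ f₁ ψ h₂.test.cont h₂.test.cpt h₁.test.cont h₁.test.cpt hψ.cont hψ.bdd x]
  have hker : ∀ g : G K, H724.convKer724 R.F f₁ f₂ g = H724.convKer724 R.F f₂ f₁ g := by
    intro g
    have s12 : IsSphShapeT175 𝔫 τ (H724.convKer724 R.F f₁ f₂) :=
      hShape hLC 𝔫 τ R.F f₁ f₂ (shapeT_of_sphTestT175 h₁) (shapeT_of_sphTestT175 h₂)
    have e1 : (fun h => f₂ (thetaG175 h)) = f₂ :=
      funext fun h => sphInvT175 hFG hIG hArch hFin h𝔫 hτ (shapeT_of_sphTestT175 h₂) h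
    have e2 : (fun h => f₁ (thetaG175 h)) = f₁ :=
      funext fun h => sphInvT175 hFG hIG hArch hFin h𝔫 hτ (shapeT_of_sphTestT175 h₁) h
    rw [← sphInvT175 hFG hIG hArch hFin h𝔫 hτ s12 g, hSwap hLC hT1.unimod R.F hμ f₁ f₂ g, e1, e2]
  simp_rw [hker]

end Fermat.Agent.LT.T2.H175

end
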