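import Mathlib
import Fermat.Agent.LT.T2.H175.TauSpec
import Fermat.Agent.LT.T2.H228.AdjTest

/-!
# Row LT, tower T2, leaf T2.22a (helper175): `adj` preserves the (spherical) test functions of
# type `τ`

OFF-MAIN.  `leafT02a_175 : LeafT02a175 K` (cut `LT/T2/H175/TauSpec.lean`).  The regularity fields
are those of helper228 (`adj_cont228`, `adj_cpt228`, `adj_smooth228`, byte-identical copy of
`LT/T2/H228/AdjTest.lean`); the type: `conj τ(k⁻¹) = τ(k)` for a unitary character.
-/

set_option autoImplicit false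

open IsDedekindDomain NumberField MeasureTheory AutomorphicForm
open Fermat.Agent.LT.H556.A0

noncomputable section

namespace Fermat.Agent.LT.T2.H175

open Fermat.Agent.LT.T2

variable {K : Type} [Field K] [NumberField K]

/-- `τ(k⁻¹) = τ(k)⁻¹` on the compact groups. -/
theorem kType_inv175 {τ : G K → ℂ} (hτ : IsKType τ) {w : InfinitePlace K} {k : G K}
    (hk : IsArchCompact w k) : τ k⁻¹ = (τ k)⁻¹ :=
  eq_inv_of_mul_eq_one_right (kType_mul_inv175 hτ hk)

/-- `conj τ(k) = τ(k)⁻¹` on the compact groups. -/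
theorem kType_conj175 {τ : G K → ℂ} (hτ : IsKType τ) {w : InfinitePlace K} {k : G K}
    (hk : IsArchCompact w k) : (starRingEnd ℂ) (τ k) = (τ k)⁻¹ := by
  have h1 : ‖τ k‖ = 1 := hτ.norm_one w k hk
  have h2 : τ k * (starRingEnd ℂ) (τ k) = 1 := by
    rw [Complex.mul_conj, Complex.normSq_eq_norm_sq, h1]
    norm_num
  exact eq_inv_of_mul_eq_one_right h2

theorem adj_arch_right175 {τ : G K → ℂ} (hτ : IsKType τ) {f : G K → ℂ} {w : InfinitePlace K}
    {k : G K} (hk : IsArchCompact w k)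
    (hf : ∀ g : G K, f (k⁻¹ * g) = (τ k⁻¹)⁻¹ * f g) (g : G K) :
    adj f (g * k) = (τ k)⁻¹ * adj f g := by
  rw [H228.adj_apply228, H228.adj_apply228, mul_inv_rev, hf, map_mul, map_inv₀,
    kType_conj175 hτ (H228.isArchCompact_inv228 hk), kType_inv175 hτ hk, inv_inv]

theorem adj_arch_left175 {τ : G K → ℂ} (hτ : IsKType τ) {f : G K → ℂ} {w : InfinitePlace K}
    {k : G K} (hk : IsArchCompact w k)
    (hf : ∀ g : G K, f (g * k⁻¹) = (τ k⁻¹)⁻¹ * f g) (g : G K) :
    adj f (k * g) = (τ k)⁻¹ * adj f g := by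
  rw [H228.adj_apply228, H228.adj_apply228, mul_inv_rev, hf, map_mul, map_inv₀,
    kType_conj175 hτ (H228.isArchCompact_inv228 hk), kType_inv175 hτ hk, inv_inv]

theorem adj_isTestT175 {𝔫 : Ideal (𝓞 K)} {τ : G K → ℂ} (hτ : IsKType τ) {f : G K → ℂ}
    (hf : IsTestT 𝔫 τ f) : IsTestT 𝔫 τ (adj f) :=
  { cont := H228.adj_cont228 hf.cont
    smooth := H228.adj_smooth228 hf.smooth
    cpt := H228.adj_cpt228 hf.cpt
    level_right := fun u hu g =>
      H228.adj_right228 (fun g' => hf.level_left u⁻¹ (H228.inLevelGroup_inv228 hu) g') g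
    level_left := fun u hu g =>
      H228.adj_left228 (fun g' => hf.level_right u⁻¹ (H228.inLevelGroup_inv228 hu) g') g
    arch_right := fun w k hk g =>
      adj_arch_right175 hτ hk
        (fun g' => hf.arch_left w k⁻¹ (H228.isArchCompact_inv228 hk) g') g
    arch_left := fun w k hk g =>
      adj_arch_left175 hτ hk
        (fun g' => hf.arch_right w k⁻¹ (H228.isArchCompact_inv228 hk) g') g }

theorem adj_isSphTestT175 {𝔫 : Ideal (𝓞 K)} {τ : G K → ℂ} (hτ : IsKType τ) {f : G K → ℂ}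
    (hf : IsSphTestT 𝔫 τ f) : IsSphTestT 𝔫 τ (adj f) := by
  refine ⟨adj_isTestT175 hτ hf.test, ?_⟩
  intro g hg v hv i j
  have hfne : f g⁻¹ ≠ 0 := by
    intro h; apply hg; rw [H228.adj_apply228, h, map_zero]
  have := hf.bad_unit g⁻¹ hfne v hv i j
  rw [inv_inv] at this
  exact ⟨this.2, this.1⟩

/-- **T2.22a**: `adj` preserves the test functions and the spherical test functions of type
`τ`. -/
theorem leafT02a_175 (K : Type) [Field K] [NumberField K] : LeafT02a175 K :=
  fun _ _ _ _ hτ => ⟨fun _ hf => adj_isTestT175 hτ hf, fun _ hf => adj_isSphTestT175 hτ hf⟩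

end Fermat.Agent.LT.T2.H175

end
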