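import Mathlib
import Fermat.Agent.LT.T2.H175.AdjT

/-!
# Row LT, tower T2, leaf T2.22b (helper175): `conv F f` preserves `IsAutT` and `IsCuspT`

OFF-MAIN.  `leafT02b_175 : LeafT02b175 K` (cut `LT/T2/H175/TauSpec.lean`).  Proof of helper228
(`LT/T2/H228/ConvStable.lean`) with `f` continuous of compact support; the type
(`h ↦ k h` produces `τ(k)`), and the ray generator is central.
-/

set_option autoImplicit false

open IsDedekindDomain NumberField MeasureTheory AutomorphicForm
open Fermat.Agent.LT.H556.A0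

noncomputable section

namespace Fermat.Agent.LT.T2.H175

open Fermat.Agent.LT.T2

attribute [local instance] Fermat.Agent.LT.T2.borelG

variable {K : Type} [Field K] [NumberField K]

theorem borelSpaceG175 : BorelSpace (G K) := ⟨rfl⟩

attribute [local instance] borelSpaceG175

/-! ## The ray generator is central -/

/-- A matrix which is the same scalar at every infinite place and trivial at the finite places
is a scalar matrix. -/
theorem rayGen_val175 {r : G K} (hr : IsRayGen r) :
    (r : Matrix (Fin 2) (Fin 2) (Adl K))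
      = Matrix.scalar (Fin 2) ((r : Matrix (Fin 2) (Fin 2) (Adl K)) 0 0) := by
  obtain ⟨hfin, t, -, -, hinf⟩ := hr
  have hinj : ∀ w : InfinitePlace K,
      Function.Injective (InfinitePlace.Completion.extensionEmbedding w) :=
    fun w => (InfinitePlace.Completion.extensionEmbedding w).injective
  have hw : ∀ (w : InfinitePlace K) (i j : Fin 2), InfinitePlace.Completion.extensionEmbedding w
      (((r : Matrix (Fin 2) (Fin 2) (Adl K)) i j).1 w)
        = (Matrix.diagonal (fun _ : Fin 2 => (t : ℂ))) i j :=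
    fun w i j => congrFun (congrFun (hinf w) i) j
  have hv : ∀ (v : HeightOneSpectrum (𝓞 K)) (i j : Fin 2),
      ((r : Matrix (Fin 2) (Fin 2) (Adl K)) i j).2 v
        = (1 : Matrix (Fin 2) (Fin 2) (v.adicCompletion K)) i j :=
    fun v i j => congrFun (congrFun (hfin v) i) j
  have hoff : ∀ i j : Fin 2, i ≠ j → (r : Matrix (Fin 2) (Fin 2) (Adl K)) i j = 0 := by
    intro i j hij
    refine H228.adele_ext228 (fun w => ?_) (fun v => ?_)
    · apply hinj w
      rw [hw w i j, Matrix.diagonal_apply_ne _ hij]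
      exact (map_zero _).symm
    · rw [hv v i j, Matrix.one_apply_ne hij]; rfl
  have hdiag : (r : Matrix (Fin 2) (Fin 2) (Adl K)) 1 1
      = (r : Matrix (Fin 2) (Fin 2) (Adl K)) 0 0 := by
    refine H228.adele_ext228 (fun w => ?_) (fun v => ?_)
    · apply hinj w
      rw [hw w 1 1, hw w 0 0, Matrix.diagonal_apply_eq, Matrix.diagonal_apply_eq]
    · rw [hv v 1 1, hv v 0 0, Matrix.one_apply_eq, Matrix.one_apply_eq]
  ext i j
  fin_cases i <;> fin_cases j
  · simp
  · simpa using hoff 0 1 (by decide)
  · simpa using hoff 1 0 (by decide)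
  · simpa using hdiag

/-- The ray generator is central in `G K`. -/
theorem rayGen_central175 {r : G K} (hr : IsRayGen r) (y : G K) : r * y = y * r := by
  have h := rayGen_val175 hr
  apply Units.ext
  rw [Units.val_mul, Units.val_mul, h]
  exact (Matrix.scalar_commute _ (fun r' => Commute.all _ r') _).eq

/-! ## Integrability, continuity, bound -/

theorem integrable_cc175 (hT : T1.T1Out K) (F : Frame K) {f : G K → ℂ}
    (hfc : Continuous f) (hfs : HasCompactSupport f) : Integrable f F.μ := by
  have := F.haar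
  have : T2Space (G K) := hT.locComp.2.2.1
  exact hfc.integrable_of_hasCompactSupport hfs

theorem conv_bdd175 (hT : T1.T1Out K) (F : Frame K) {f φ : G K → ℂ}
    (hfc : Continuous f) (hfs : HasCompactSupport f) (hφb : ∃ C : ℝ, ∀ g : G K, ‖φ g‖ ≤ C) :
    ∃ C : ℝ, ∀ x : G K, ‖conv F f φ x‖ ≤ C := by
  obtain ⟨C, hC⟩ := hφb
  have hI := (integrable_cc175 hT F hfc hfs).norm
  refine ⟨∫ y, C * ‖f y‖ ∂F.μ, fun x => ?_⟩
  unfold conv
  refine norm_integral_le_of_norm_le (hI.const_mul C) (Filter.Eventually.of_forall fun y => ?_)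
  rw [norm_mul]
  exact mul_le_mul_of_nonneg_right (hC _) (norm_nonneg _)

theorem conv_continuous175 (hT : T1.T1Out K) (F : Frame K) {f φ : G K → ℂ}
    (hfc : Continuous f) (hfs : HasCompactSupport f) (hφc : Continuous φ)
    (hφb : ∃ C : ℝ, ∀ g : G K, ‖φ g‖ ≤ C) : Continuous (conv F f φ) := by
  obtain ⟨C, hC⟩ := hφb
  have : SecondCountableTopology (G K) := hT.locComp.2.2.2
  have hI := (integrable_cc175 hT F hfc hfs).norm
  unfold conv
  refine continuous_of_dominated (bound := fun y => C * ‖f y‖) ?_ ?_ (hI.const_mul C) ?_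
  · intro x
    exact ((hφc.comp (continuous_const.mul continuous_id)).mul hfc).aestronglyMeasurable
  · intro x
    refine Filter.Eventually.of_forall fun y => ?_
    rw [norm_mul]
    exact mul_le_mul_of_nonneg_right (hC _) (norm_nonneg _)
  · refine Filter.Eventually.of_forall fun y => ?_
    exact (hφc.comp (continuous_id.mul continuous_const)).mul continuous_const

/-! ## The type and the ray -/

/-- `conv F f φ (x k) = c · conv F f φ (x)` when `f (k⁻¹ g) = c f(g)`. -/
theorem conv_right_type175 (F : Frame K) {f φ : G K → ℂ} {u : G K} {c : ℂ}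
    (hfu : ∀ g : G K, f (u⁻¹ * g) = c * f g) (x : G K) :
    conv F f φ (x * u) = c * conv F f φ x := by
  have := F.haar
  unfold conv
  have h1 : ∫ h, φ (x * u * h) * f h ∂F.μ
      = ∫ h, (fun h' => φ (x * h') * f (u⁻¹ * h')) (u * h) ∂F.μ := by
    refine integral_congr_ae (Filter.Eventually.of_forall fun y => ?_)
    simp [mul_assoc]
  rw [h1]
  refine (integral_mul_left_eq_self (μ := F.μ) (fun h' => φ (x * h') * f (u⁻¹ * h')) u).trans ?_
  rw [← integral_const_mul]
  refine integral_congr_ae (Filter.Eventually.of_forall fun y => ?_)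
  simp only [hfu]
  ring

theorem conv_arch_compactT175 (F : Frame K) {𝔫 : Ideal (𝓞 K)} {τ : G K → ℂ} (hτ : IsKType τ)
    {f : G K → ℂ} (hf : IsTestT 𝔫 τ f) (φ : G K → ℂ) (w : InfinitePlace K) (k : G K)
    (hk : IsArchCompact w k) (x : G K) : conv F f φ (x * k) = τ k * conv F f φ x := by
  refine conv_right_type175 F (fun g => ?_) x
  rw [hf.arch_left w k⁻¹ (H228.isArchCompact_inv228 hk) g, kType_inv175 hτ hk, inv_inv]

theorem conv_rayT175 (F : Frame K) (f : G K → ℂ) {φ : G K → ℂ} {r : G K} (hr : IsRayGen r)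
    (hφ : ∀ g : G K, φ (g * r) = φ g) (x : G K) : conv F f φ (x * r) = conv F f φ x := by
  unfold conv
  refine integral_congr_ae (Filter.Eventually.of_forall fun y => ?_)
  have : x * r * y = x * y * r := by
    rw [mul_assoc, rayGen_central175 hr y, ← mul_assoc]
  simp only [this, hφ]

/-! ## Cuspidality -/

/-- The Borel `σ`-algebra of the adeles (the one of `A0.IsCuspidalFn`, `T1.AddFundDomC`). -/
local instance borelA175 : MeasurableSpace (Adl K) := borel (Adl K)

theorem borelSpaceA175 : BorelSpace (Adl K) := ⟨rfl⟩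

attribute [local instance] borelSpaceA175

theorem conv_cuspidal175 (hT : T1.T1Out K) (F : Frame K) {f φ : G K → ℂ}
    (hfc : Continuous f) (hfs : HasCompactSupport f) (hφc : Continuous φ)
    (hφb : ∃ C : ℝ, ∀ g : G K, ‖φ g‖ ≤ C) (hφ : IsCuspidalFn φ) :
    IsCuspidalFn (conv F f φ) := by
  intro μA hμA D hD n hn g
  have := F.haar
  have : SecondCountableTopology (Adl K) := hT.locComp.1.2.2
  have : LocallyCompactSpace (G K) := hT.locComp.2.1
  have : SecondCountableTopology (G K) := hT.locComp.2.2.2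
  obtain ⟨C, hC⟩ := hφb
  have hDfin : μA D < ⊤ := H228.addFundDom_fin228 hT μA hμA D hD
  have : IsFiniteMeasure (μA.restrict D) := isFiniteMeasure_restrict.2 hDfin.ne
  have hncont := H228.continuous_unip228 n hn
  have hfI : Integrable (fun y => C * ‖f y‖) F.μ :=
    ((integrable_cc175 hT F hfc hfs).norm).const_mul C
  have hprod : Integrable (Function.uncurry fun (x : Adl K) (y : G K) => φ (n x * g * y) * f y)
      ((μA.restrict D).prod F.μ) := by
    have hb : Integrable (fun z : Adl K × G K => (1 : ℝ) * (C * ‖f z.2‖))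
        ((μA.restrict D).prod F.μ) :=
      Integrable.mul_prod (f := fun _ : Adl K => (1 : ℝ)) (integrable_const _) hfI
    refine hb.mono' ?_ (Filter.Eventually.of_forall fun z => ?_)
    · have hcont : Continuous (Function.uncurry fun (x : Adl K) (y : G K) =>
          φ (n x * g * y) * f y) := by
        unfold Function.uncurry
        exact (hφc.comp (((hncont.comp continuous_fst).mul continuous_const).mul
          continuous_snd)).mul (hfc.comp continuous_snd)
      exact hcont.aestronglyMeasurable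
    · simp only [Function.uncurry, one_mul, norm_mul]
      exact mul_le_mul_of_nonneg_right (hC _) (norm_nonneg _)
  have hswap := integral_integral_swap hprod
  have hL : ∫ x in D, conv F f φ (n x * g) ∂μA
      = ∫ x in D, ∫ y, φ (n x * g * y) * f y ∂F.μ ∂μA := rfl
  rw [hL, hswap]
  have hzero : ∀ y : G K, ∫ x in D, φ (n x * g * y) * f y ∂μA = 0 := by
    intro y
    have h1 : ∫ x in D, φ (n x * g * y) * f y ∂μA = (∫ x in D, φ (n x * (g * y)) ∂μA) * f y := by
      rw [← integral_mul_const]
      refine integral_congr_ae (Filter.Eventually.of_forall fun x => ?_)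
      simp only [mul_assoc]
    rw [h1, hφ μA hμA D hD n hn (g * y), zero_mul]
  simp only [hzero, integral_zero]

/-! ## The leaf -/

theorem conv_isAutT175 (hT : T1.T1Out K) {𝔫 : Ideal (𝓞 K)} {τ : G K → ℂ} (hτ : IsKType τ)
    (R : FrameR K) {f ψ : G K → ℂ} (hf : IsTestT 𝔫 τ f) (hψ : IsAutT 𝔫 τ R.r ψ) :
    IsAutT 𝔫 τ R.r (conv R.F f ψ) :=
  { cont := conv_continuous175 hT R.F hf.cont hf.cpt hψ.cont hψ.bdd
    bdd := conv_bdd175 hT R.F hf.cont hf.cpt hψ.bdd
    left_inv := H228.conv_left_inv228 R.F hψ.left_inv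
    level_inv := fun u hu g =>
      H228.conv_right_inv228 R.F
        (fun g' => hf.level_left u⁻¹ (H228.inLevelGroup_inv228 hu) g') g
    arch_compact := fun w k hk g => conv_arch_compactT175 R.F hτ hf ψ w k hk g
    ray := fun g => conv_rayT175 R.F f R.ray hψ.ray g }

theorem conv_isCuspT175 (hT : T1.T1Out K) {𝔫 : Ideal (𝓞 K)} {τ : G K → ℂ} (hτ : IsKType τ)
    (R : FrameR K) {f φ : G K → ℂ} (hf : IsTestT 𝔫 τ f) (hφ : IsCuspT 𝔫 τ R.r φ) :
    IsCuspT 𝔫 τ R.r (conv R.F f φ) :=
  ⟨conv_isAutT175 hT hτ R hf hφ.aut,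
    conv_cuspidal175 hT R.F hf.cont hf.cpt hφ.aut.cont hφ.aut.bdd hφ.cuspidal⟩

/-- **T2.22b**: convolution by a test function of type `τ` preserves `IsCuspT` and `IsAutT`. -/
theorem leafT02b_175 (K : Type) [Field K] [NumberField K] : LeafT02b175 K :=
  fun hT _ _ _ hτ R =>
    ⟨fun _ _ hf hφ => conv_isCuspT175 hT hτ R hf hφ,
      fun _ _ hf hψ => conv_isAutT175 hT hτ R hf hψ⟩

end Fermat.Agent.LT.T2.H175

end
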