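import Mathlib
import Fermat.Agent.LT.T2.H175.TauSpec
import Fermat.Agent.LT.T2.H473.ConvSwap

/-!
# Row LT, tower T2, leaf T2.22d.3 `ThetaSwapC175` (SWAP for `θ`): PROVED (helper175, spare)

OFF-MAIN.  Proof of `convSwapC473` (helper473, byte-identical copy of `LT/T2/H473/ConvSwap.lean`,
of which `isInvInvariant_G473` is used) with `thetaG175` in place of `adjG724`.
-/

set_option autoImplicit false

open IsDedekindDomain NumberField MeasureTheory AutomorphicForm
open Fermat.Agent.LT.H556.A0

noncomputable section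

namespace Fermat.Agent.LT.T2.H175

open Fermat.Agent.LT.T2 Fermat.Agent.LT.T2.H724

variable {K : Type} [Field K] [NumberField K]

attribute [local instance] Fermat.Agent.LT.T2.borelG

/-- **T2.22d.3 SWAP for `θ`.** -/
theorem thetaSwapC_175 (K : Type) [Field K] [NumberField K] : ThetaSwapC175 K := by
  intro hLC hU F hι f₁ f₂ g
  have : BorelSpace (G K) := ⟨rfl⟩
  have : LocallyCompactSpace (G K) := hLC.2.1
  have : SecondCountableTopology (G K) := hLC.2.2.2
  have : F.μ.IsHaarMeasure := F.haar
  have : F.μ.IsInvInvariant := H473.isInvInvariant_G473 hLC hU F.μ F.haar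
  let e : G K ≃ᵐ G K :=
    { toFun := thetaG175
      invFun := thetaG175
      left_inv := thetaG175_thetaG175
      right_inv := thetaG175_thetaG175
      measurable_toFun := hι.measurable
      measurable_invFun := hι.measurable }
  have he : MeasurePreserving e F.μ F.μ := hι
  unfold convKer724
  have hR : ∫ h, f₂ (thetaG175 h) * f₁ (thetaG175 (h⁻¹ * g)) ∂F.μ
      = ∫ h, f₂ h * f₁ (thetaG175 g / h) ∂F.μ := by
    have := he.integral_comp' (fun h => f₂ h * f₁ (thetaG175 g / h))
    rw [← this]
    refine integral_congr_ae (Filter.Eventually.of_forall fun h => ?_)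
    show f₂ (thetaG175 h) * f₁ (thetaG175 (h⁻¹ * g))
      = f₂ (thetaG175 h) * f₁ (thetaG175 g / thetaG175 h)
    rw [thetaG175_mul, thetaG175_inv, div_eq_mul_inv]
  have hL : ∫ h, f₁ h * f₂ (h⁻¹ * thetaG175 g) ∂F.μ
      = ∫ h, f₂ h * f₁ (thetaG175 g / h) ∂F.μ := by
    rw [← integral_div_left_eq_self (fun h => f₁ h * f₂ (h⁻¹ * thetaG175 g)) F.μ (thetaG175 g)]
    refine integral_congr_ae (Filter.Eventually.of_forall fun h => ?_)
    show f₁ (thetaG175 g / h) * f₂ ((thetaG175 g / h)⁻¹ * thetaG175 g)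
      = f₂ h * f₁ (thetaG175 g / h)
    rw [inv_div, div_mul_cancel, mul_comm]
  rw [hL, hR]

end Fermat.Agent.LT.T2.H175

end
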