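import Mathlib
import Fermat.Agent.LT.T2.H175.ConvT
import Fermat.Agent.LT.T2.H175.ThetaSwap
import Fermat.Agent.LT.T2.H887.LeafT02c
import Fermat.Agent.LT.T2.H323.ConvKer
import Fermat.Agent.LT.T2.H79.ShapeT
import Fermat.Agent.LT.T2.H729.ThetaMeasLeaf
import Fermat.Agent.LT.T2.H355.LocArch
import Fermat.Agent.LT.T2.H776.LocFinT
import Fermat.Agent.LT.T2.H793.FinGlue
import Fermat.Agent.LT.T2.H488.InfGlue

/-!
# Row LT, tower T2, leaf T2.22 `LeafT02` (`ConvCuspT`, class of T5): CLOSED (helper175)

OFF-MAIN.  `leafT02_175 K : T2.LeafT02 K`, UNCONDITIONAL, in ONE import closure: the cut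
`LT/T2/H175/TauSpec.lean` and the leaves, all vendored byte-identical from their owners:

* T2.22a, T2.22b: helper175 (`AdjT.lean`, `ConvT.lean`);
* T2.22c: helper887 / helper981 (`H887/LeafT02c.lean`, `H981/ConvAdjT.lean`);
* T2.22d: FUBINI helper323 (`convKerC323`), SHAPE helper79 (`shapeTC_79`), MEASURE helper729
  (`thetaMeasC729`), SWAP helper175 (`thetaSwapC_175`), LOCAL infinite helper355
  (`locArchC355`), LOCAL finite helper776 (`locFinTC776`, on helper570), GLUE finite helper793
  (`finGlueC793`, on helper724), GLUE infinite helper488 (`infGlueC175_488`).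
-/

set_option autoImplicit false

namespace Fermat.Agent.LT.T2.H175

open Fermat.Agent.LT.T2

/-- **T2.22d**, unconditional. -/
theorem leafT02d_175 (K : Type) [Field K] [NumberField K] : LeafT02d175 K :=
  convCommT_of_leaves175 (H323.convKerC323 K) (H79.shapeTC_79 K) (H729.thetaMeasC729 K)
    (thetaSwapC_175 K) H355.locArchC355 (H776.locFinTC776 K) (H793.finGlueC793 K)
    (H488.infGlueC175_488 K)

/-- **T2.22** `LeafT02` (`ConvCuspT` for the class of T5), unconditional. -/
theorem leafT02_175 (K : Type) [Field K] [NumberField K] : T2.LeafT02 K :=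
  leafT02_of_parts175 (leafT02a_175 K) (leafT02b_175 K) (H887.leafT02c887 K) (leafT02d_175 K)

end Fermat.Agent.LT.T2.H175
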